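import Fermat.Agent.S49.LinAlg

set_option autoImplicit false

/-!
# S41: common eigenvectors of a commuting family inside a stable subspace
-/

namespace Fermat.Agent.S41.Final49

open Module Fermat.Agent.S49

open scoped IsMulCommutative

/-- A commuting family of operators stabilising a nonzero finite-dimensional subspace `W`
of a vector space over an algebraically closed field has a common eigenvector inside `W`. -/
theorem exists_common_eigenvector_family {K V ι : Type*} [Field K] [IsAlgClosed K]
    [AddCommGroup V] [Module K V] (T : ι → Module.End K V)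
    (hcomm : ∀ i j, Commute (T i) (T j)) (W : Submodule K V) [FiniteDimensional K W]
    (hW : W ≠ ⊥) (hstab : ∀ i, ∀ w ∈ W, T i w ∈ W) :
    ∃ v ∈ W, v ≠ 0 ∧ ∀ i, ∃ μ : K, T i v = μ • v := by
  let A : Subalgebra ℤ (Module.End K V) := Algebra.adjoin ℤ (Set.range T)
  haveI : IsMulCommutative A := Algebra.isMulCommutative_adjoin ℤ (by
    rintro _ ⟨i, rfl⟩ _ ⟨j, rfl⟩
    exact hcomm i j)
  have hA : ∀ t ∈ A, ∀ w ∈ W, (t : Module.End K V) w ∈ W := by
    intro t ht
    induction ht using Algebra.adjoin_induction with
    | mem g hg =>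
      obtain ⟨i, rfl⟩ := hg
      exact hstab i
    | algebraMap r =>
      intro y hy
      rw [Module.algebraMap_end_apply]
      exact W.smul_of_tower_mem r hy
    | add s t _ _ ihs iht =>
      intro y hy
      exact W.add_mem (ihs y hy) (iht y hy)
    | mul s t _ _ ihs iht =>
      intro y hy
      exact ihs _ (iht y hy)
  obtain ⟨v, hvW, hv0, hv⟩ := exists_common_eigenvector_in (A := A)
    ((A.val : A →ₐ[ℤ] Module.End K V) : A →+* Module.End K V) (finrank K W) W rfl hW
    (fun a w hw => hA a a.2 w hw)
  exact ⟨v, hvW, hv0, fun i => hv ⟨T i, Algebra.subset_adjoin ⟨i, rfl⟩⟩⟩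

end Fermat.Agent.S41.Final49
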