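import Fermat.Agent.S21.PeriodPrim
import Fermat.Agent.Lib.QExpFinDim
import Fermat.Prelude.Def_CuspForm_HeckeAlgebra
import Fermat.Agent.S41.Final49.CommonEigen

set_option autoImplicit false

/-!
# S41: the final assembly, abstract in the cohomological Hecke operators

Input: a family `TX ℓ` of operators on `Hom(Γ₀(M), ℂ)` compatible with the period map and
the Hecke operators on weight two cusp forms, commuting with the involution `charInvolution`,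
and a `TX`-stable subspace `Knew` of the parabolic homomorphisms on which `TX q` squares to the
identity, containing an eigenvector `v₀` of the `TX ℓ`, `ℓ ∈ S`.

Output: a nonzero eigenvector `g` of the full Hecke algebra of level `M` (all `T_ℓ`, `ℓ ∤ M`, and
all `U_ℓ`, `ℓ ∣ M`) whose eigenvalues at the primes of `S` are the eigenvalues of `v₀`, and whose
eigenvalue at `q` has square one.  This is the shape of the conclusion of
`Contract77.LevelRaisingHecke`.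
-/

namespace Fermat.Agent.S41.Final49

open ModularCurve ModularCurve.Period CongruenceSubgroup CuspForm
open Fermat.Agent.S21.PeriodPrim

variable {M : ℕ} [NeZero M]

/-- The Hecke operator at a prime: `U_ℓ` if `ℓ ∣ M`, `T_ℓ` otherwise (and the identity at
non-primes). -/
noncomputable def theta (M : ℕ) [NeZero M] (ℓ : ℕ) : Module.End ℂ (CuspForm (Gamma0 M) 2) :=
  if hℓ : ℓ.Prime then (if h : ℓ ∣ M then heckeULin 2 h else heckeTLin 2 hℓ h) else 1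

theorem theta_of_dvd {ℓ : ℕ} (hℓ : ℓ.Prime) (h : ℓ ∣ M) : theta M ℓ = heckeULin 2 h := by
  unfold theta
  rw [dif_pos hℓ, dif_pos h]

theorem theta_of_not_dvd {ℓ : ℕ} (hℓ : ℓ.Prime) (h : ¬ ℓ ∣ M) :
    theta M ℓ = heckeTLin 2 hℓ h := by
  unfold theta
  rw [dif_pos hℓ, dif_neg h]

theorem theta_of_not_prime {ℓ : ℕ} (hℓ : ¬ ℓ.Prime) : theta M ℓ = 1 := by
  unfold theta
  rw [dif_neg hℓ]

theorem theta_mem_or (ℓ : ℕ) :
    theta M ℓ ∈ heckeGenerators M 2 (∅ : Set ℕ) ∨ theta M ℓ = 1 := by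
  by_cases hℓ : ℓ.Prime
  · left
    by_cases h : ℓ ∣ M
    · rw [theta_of_dvd hℓ h]
      exact heckeULin_mem_heckeGenerators hℓ h (Set.notMem_empty ℓ)
    · rw [theta_of_not_dvd hℓ h]
      exact heckeTLin_mem_heckeGenerators hℓ h (Set.notMem_empty ℓ)
  · right
    exact theta_of_not_prime hℓ

theorem theta_commute (ℓ ℓ' : ℕ) : Commute (theta M ℓ) (theta M ℓ') := by
  rcases theta_mem_or (M := M) ℓ with h | h
  · rcases theta_mem_or (M := M) ℓ' with h' | h'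
    · exact commute_of_mem_heckeGenerators h h'
    · rw [h']
      exact Commute.one_right _
  · rw [h]
    exact Commute.one_left _

/-- The diagonal action on pairs of cusp forms. -/
noncomputable def thetaD (M : ℕ) [NeZero M] (ℓ : ℕ) :
    Module.End ℂ (CuspForm (Gamma0 M) 2 × CuspForm (Gamma0 M) 2) :=
  (theta M ℓ).prodMap (theta M ℓ)

theorem thetaD_apply (ℓ : ℕ) (y : CuspForm (Gamma0 M) 2 × CuspForm (Gamma0 M) 2) :
    thetaD M ℓ y = (theta M ℓ y.1, theta M ℓ y.2) := rfl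

theorem thetaD_commute (ℓ ℓ' : ℕ) : Commute (thetaD M ℓ) (thetaD M ℓ') := by
  apply LinearMap.ext
  intro y
  have h := fun f => congrArg (fun t : Module.End ℂ (CuspForm (Gamma0 M) 2) => t f)
    (theta_commute (M := M) ℓ ℓ').eq
  show thetaD M ℓ (thetaD M ℓ' y) = thetaD M ℓ' (thetaD M ℓ y)
  rw [thetaD_apply, thetaD_apply, thetaD_apply, thetaD_apply]
  exact Prod.ext (h y.1) (h y.2)

section Main

variable (TX : ℕ → Module.End ℂ (Additive (Gamma0 M) →+ ℂ))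
  (hE1 : ∀ ℓ (hℓ : ℓ.Prime) (hℓM : ¬ ℓ ∣ M) (f : CuspForm (Gamma0 M) 2),
    TX ℓ (periodMap M f) = periodMap M (heckeTLin 2 hℓ hℓM f))
  (hE2 : ∀ ℓ (_ : ℓ.Prime) (hℓM : ℓ ∣ M) (f : CuspForm (Gamma0 M) 2),
    TX ℓ (periodMap M f) = periodMap M (heckeULin 2 hℓM f))
  (hE3 : ∀ ℓ, ℓ.Prime → ∀ φ : Additive (Gamma0 M) →+ ℂ,
    TX ℓ (charInvolution M ℂ ℂ φ) = charInvolution M ℂ ℂ (TX ℓ φ))

include hE1 hE2 in
theorem TX_periodMap {ℓ : ℕ} (hℓ : ℓ.Prime) (f : CuspForm (Gamma0 M) 2) :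
    TX ℓ (periodMap M f) = periodMap M (theta M ℓ f) := by
  by_cases h : ℓ ∣ M
  · rw [theta_of_dvd hℓ h]
    exact hE2 ℓ hℓ h f
  · rw [theta_of_not_dvd hℓ h]
    exact hE1 ℓ hℓ h f

include hE1 hE2 hE3 in
/-- Equivariance of the Eichler–Shimura map. -/
theorem periodHomPair_thetaD {ℓ : ℕ} (hℓ : ℓ.Prime)
    (y : CuspForm (Gamma0 M) 2 × CuspForm (Gamma0 M) 2) :
    periodHomPair M (thetaD M ℓ y) = TX ℓ (periodHomPair M y) := by
  obtain ⟨f, g⟩ := y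
  rw [thetaD_apply, periodHomPair_apply, periodHomPair_apply]
  simp only [map_add, map_sub, hE3 ℓ hℓ, TX_periodMap TX hE1 hE2 hℓ]

include hE1 hE2 hE3 in
/-- **Final assembly (abstract form).** -/
theorem exists_full_eigenvector_of_eigenvector
    (hES : Function.Injective (periodHomPair M) ∧
      LinearMap.range (periodHomPair M) = parabolicHoms ℂ (Gamma0 M) ℂ)
    {q : ℕ} (hq : q.Prime)
    (Knew : Submodule ℂ (Additive (Gamma0 M) →+ ℂ))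
    (hKpar : Knew ≤ parabolicHoms ℂ (Gamma0 M) ℂ)
    (hK1 : ∀ ℓ, ℓ.Prime → ∀ φ ∈ Knew, TX ℓ φ ∈ Knew)
    (hK2 : ∀ φ ∈ Knew, TX q (TX q φ) = φ)
    (S : Set ℕ) (v₀ : Additive (Gamma0 M) →+ ℂ) (hv₀K : v₀ ∈ Knew) (hv₀ : v₀ ≠ 0)
    (ψ : ℕ → ℂ) (hψ : ∀ ℓ ∈ S, ℓ.Prime → TX ℓ v₀ = ψ ℓ • v₀) :
    ∃ (g : CuspForm (Gamma0 M) 2) (mu : ℕ → ℂ), g ≠ 0 ∧
      (∀ (ℓ : ℕ) (hℓ : ℓ.Prime) (hℓM : ¬ ℓ ∣ M), heckeTLin 2 hℓ hℓM g = mu ℓ • g) ∧
      (∀ (ℓ : ℕ) (_ : ℓ.Prime) (hℓM : ℓ ∣ M), heckeULin 2 hℓM g = mu ℓ • g) ∧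
      (∀ ℓ ∈ S, ℓ.Prime → mu ℓ = ψ ℓ) ∧ mu q ^ 2 = 1 := by
  classical
  obtain ⟨hinj, hrange⟩ := hES
  haveI : FiniteDimensional ℂ (CuspForm (Gamma0 M) 2) :=
    Fermat.Agent.Lib.QExpFinDim.finiteDimensional_cuspForm M 2
  have hΦ : ∀ {ℓ : ℕ} (_ : ℓ.Prime) (y : CuspForm (Gamma0 M) 2 × CuspForm (Gamma0 M) 2),
      periodHomPair M (thetaD M ℓ y) = TX ℓ (periodHomPair M y) :=
    fun hℓ y => periodHomPair_thetaD TX hE1 hE2 hE3 hℓ y
  -- the subspace of pairs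
  let W₂ : Submodule ℂ (CuspForm (Gamma0 M) 2 × CuspForm (Gamma0 M) 2) :=
    { carrier := {y | periodHomPair M y ∈ Knew ∧
        ∀ ℓ ∈ S, ℓ.Prime → thetaD M ℓ y = ψ ℓ • y}
      add_mem' := by
        rintro y y' ⟨h1, h2⟩ ⟨h1', h2'⟩
        refine ⟨by rw [map_add]; exact Knew.add_mem h1 h1', fun ℓ hℓS hℓ => ?_⟩
        rw [map_add, h2 ℓ hℓS hℓ, h2' ℓ hℓS hℓ, smul_add]
      zero_mem' := by
        refine ⟨by rw [map_zero]; exact Knew.zero_mem, fun ℓ _ _ => ?_⟩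
        rw [map_zero, smul_zero]
      smul_mem' := by
        rintro c y ⟨h1, h2⟩
        refine ⟨by rw [map_smul]; exact Knew.smul_mem c h1, fun ℓ hℓS hℓ => ?_⟩
        rw [map_smul, h2 ℓ hℓS hℓ, smul_comm] }
  have hmemW₂ : ∀ y, y ∈ W₂ ↔ (periodHomPair M y ∈ Knew ∧
      ∀ ℓ ∈ S, ℓ.Prime → thetaD M ℓ y = ψ ℓ • y) := fun y => Iff.rfl
  -- it is nonzero
  have hv₀range : v₀ ∈ LinearMap.range (periodHomPair M) := by
    rw [hrange]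
    exact hKpar hv₀K
  obtain ⟨y₀, hy₀⟩ := hv₀range
  have hy₀W : y₀ ∈ W₂ := by
    rw [hmemW₂]
    refine ⟨by rw [hy₀]; exact hv₀K, fun ℓ hℓS hℓ => ?_⟩
    apply hinj
    rw [hΦ hℓ, map_smul, hy₀]
    exact hψ ℓ hℓS hℓ
  have hy₀0 : y₀ ≠ 0 := by
    rintro rfl
    apply hv₀
    rw [← hy₀, map_zero]
  have hW₂ : W₂ ≠ ⊥ := by
    intro h
    apply hy₀0
    have := hy₀W
    rw [h, Submodule.mem_bot] at this
    exact this
  -- it is stable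
  have hstab : ∀ ℓ : {ℓ : ℕ // ℓ.Prime}, ∀ w ∈ W₂, thetaD M ℓ.1 w ∈ W₂ := by
    rintro ⟨ℓ, hℓ⟩ w ⟨h1, h2⟩
    refine ⟨?_, fun ℓ' hℓ'S hℓ' => ?_⟩
    · rw [hΦ hℓ]
      exact hK1 ℓ hℓ _ h1
    · have hc := congrArg (fun t : Module.End ℂ
        (CuspForm (Gamma0 M) 2 × CuspForm (Gamma0 M) 2) => t w) (thetaD_commute (M := M) ℓ' ℓ).eq
      have hc' : thetaD M ℓ' (thetaD M ℓ w) = thetaD M ℓ (thetaD M ℓ' w) := hc
      rw [hc', h2 ℓ' hℓ'S hℓ', map_smul]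
  obtain ⟨y, hyW, hy0, hy⟩ := exists_common_eigenvector_family
    (fun ℓ : {ℓ : ℕ // ℓ.Prime} => thetaD M ℓ.1)
    (fun i j => thetaD_commute i.1 j.1) W₂ hW₂ hstab
  choose μ hμ using hy
  let lam : ℕ → ℂ := fun ℓ => if hℓ : ℓ.Prime then μ ⟨ℓ, hℓ⟩ else 0
  have hlam : ∀ ℓ (hℓ : ℓ.Prime), thetaD M ℓ y = lam ℓ • y := by
    intro ℓ hℓ
    simp only [lam, dif_pos hℓ]
    exact hμ ⟨ℓ, hℓ⟩
  -- eigenvalues at the primes of `S`
  have hlamS : ∀ ℓ ∈ S, ℓ.Prime → lam ℓ = ψ ℓ := by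
    intro ℓ hℓS hℓ
    have h1 := hlam ℓ hℓ
    rw [((hmemW₂ y).mp hyW).2 ℓ hℓS hℓ] at h1
    exact (smul_left_injective ℂ hy0 h1).symm
  -- the eigenvalue at `q` squares to one
  have hlamq : lam q ^ 2 = 1 := by
    have h1 : thetaD M q (thetaD M q y) = y := by
      apply hinj
      rw [hΦ hq, hΦ hq]
      exact hK2 _ ((hmemW₂ y).mp hyW).1
    rw [hlam q hq, map_smul, hlam q hq, smul_smul, ← pow_two] at h1
    have h2 : (lam q ^ 2) • y = (1 : ℂ) • y := by rw [h1, one_smul]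
    exact smul_left_injective ℂ hy0 h2
  -- pick a nonzero component
  obtain ⟨f, g⟩ := y
  have hcomp : ∀ ℓ (hℓ : ℓ.Prime), theta M ℓ f = lam ℓ • f ∧ theta M ℓ g = lam ℓ • g := by
    intro ℓ hℓ
    have h1 := hlam ℓ hℓ
    rw [thetaD_apply] at h1
    exact ⟨congrArg Prod.fst h1, congrArg Prod.snd h1⟩
  have key : ∀ h : CuspForm (Gamma0 M) 2, h ≠ 0 →
      (∀ ℓ (hℓ : ℓ.Prime), theta M ℓ h = lam ℓ • h) →
      ∃ (g : CuspForm (Gamma0 M) 2) (mu : ℕ → ℂ), g ≠ 0 ∧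
        (∀ (ℓ : ℕ) (hℓ : ℓ.Prime) (hℓM : ¬ ℓ ∣ M), heckeTLin 2 hℓ hℓM g = mu ℓ • g) ∧
        (∀ (ℓ : ℕ) (_ : ℓ.Prime) (hℓM : ℓ ∣ M), heckeULin 2 hℓM g = mu ℓ • g) ∧
        (∀ ℓ ∈ S, ℓ.Prime → mu ℓ = ψ ℓ) ∧ mu q ^ 2 = 1 := by
    intro h hh0 hh
    exact ⟨h, lam, hh0,
      fun ℓ hℓ hℓM => by rw [← theta_of_not_dvd hℓ hℓM]; exact hh ℓ hℓ,
      fun ℓ hℓ hℓM => by rw [← theta_of_dvd hℓ hℓM]; exact hh ℓ hℓ, hlamS, hlamq⟩
  by_cases hf0 : f = 0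
  · have hg0 : g ≠ 0 := by
      intro hg0
      apply hy0
      rw [hf0, hg0]
      rfl
    exact key g hg0 (fun ℓ hℓ => (hcomp ℓ hℓ).2)
  · exact key f hf0 (fun ℓ hℓ => (hcomp ℓ hℓ).1)

end Main

end Fermat.Agent.S41.Final49
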