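import Fermat.Agent.S41.DS49.Abstract
import Fermat.Agent.S41.Final49.Assembly

set_option autoImplicit false

/-!
# S41: the tail of `LevelRaisingHecke` (Deligne–Serre + Eichler–Shimura + full Hecke algebra)

Input (everything cohomological, abstract in the operators `TX ℓ` on `Hom(Γ₀(M), ℂ)`):

* `TX ℓ` is compatible with the period map and the Prelude Hecke operators (`hE1`, `hE2`) and
  commutes with `charInvolution` (`hE3`);
* `K` is a finitely generated `ℤ`-submodule of the parabolic homomorphisms (the image of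
  `ker β`), stable under all `TX ℓ`, on which `TX q` squares to the identity;
* `x ∈ K ∖ pK` is an eigenvector modulo `pK` of the `TX ℓ`, `ℓ ∈ PS`, with integer eigenvalues
  `c ℓ`.

Output: the literal conclusion of `Contract77.LevelRaisingHecke` at level `M`.
-/

namespace Fermat.Agent.S41.Final49

open ModularCurve ModularCurve.Period CongruenceSubgroup CuspForm
open Fermat.Agent.S21.PeriodPrim Fermat.Agent.S41.DS49

variable {M : ℕ} [NeZero M]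

section Tail

variable (TX : ℕ → Module.End ℂ (Additive (Gamma0 M) →+ ℂ))
  (hE1 : ∀ ℓ (hℓ : ℓ.Prime) (hℓM : ¬ ℓ ∣ M) (f : CuspForm (Gamma0 M) 2),
    TX ℓ (periodMap M f) = periodMap M (heckeTLin 2 hℓ hℓM f))
  (hE2 : ∀ ℓ (_ : ℓ.Prime) (hℓM : ℓ ∣ M) (f : CuspForm (Gamma0 M) 2),
    TX ℓ (periodMap M f) = periodMap M (heckeULin 2 hℓM f))
  (hE3 : ∀ ℓ, ℓ.Prime → ∀ φ : Additive (Gamma0 M) →+ ℂ,
    TX ℓ (charInvolution M ℂ ℂ φ) = charInvolution M ℂ ℂ (TX ℓ φ))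

include hE1 hE2 hE3 in
/-- The operators `TX ℓ` commute on the range of the Eichler–Shimura map (inherited from the
commutativity of the Hecke operators on cusp forms). -/
theorem TX_comm_on_range {ℓ ℓ' : ℕ} (hℓ : ℓ.Prime) (hℓ' : ℓ'.Prime)
    (w : Additive (Gamma0 M) →+ ℂ) (hw : w ∈ LinearMap.range (periodHomPair M)) :
    TX ℓ (TX ℓ' w) = TX ℓ' (TX ℓ w) := by
  obtain ⟨y, rfl⟩ := hw
  rw [← periodHomPair_thetaD TX hE1 hE2 hE3 hℓ', ← periodHomPair_thetaD TX hE1 hE2 hE3 hℓ,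
    ← periodHomPair_thetaD TX hE1 hE2 hE3 hℓ, ← periodHomPair_thetaD TX hE1 hE2 hE3 hℓ']
  congr 1
  exact congrArg (fun t : Module.End ℂ
    (CuspForm (Gamma0 M) 2 × CuspForm (Gamma0 M) 2) => t y) (thetaD_commute (M := M) ℓ ℓ').eq

include hE1 hE2 hE3 in
/-- **The tail of level raising.** -/
theorem levelRaising_tail
    (hES : Function.Injective (periodHomPair M) ∧
      LinearMap.range (periodHomPair M) = parabolicHoms ℂ (Gamma0 M) ℂ)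
    {q p : ℕ} (hq : q.Prime) (hp : p.Prime)
    (K : Submodule ℤ (Additive (Gamma0 M) →+ ℂ)) (hKfg : K.FG)
    (hKpar : ∀ φ ∈ K, φ ∈ parabolicHoms ℂ (Gamma0 M) ℂ)
    (hKstab : ∀ ℓ, ℓ.Prime → ∀ φ ∈ K, TX ℓ φ ∈ K)
    (hKq : ∀ φ ∈ K, TX q (TX q φ) = φ)
    (PS : Set ℕ) (hPS : ∀ ℓ ∈ PS, ℓ.Prime) (c : ℕ → ℤ)
    (x : Additive (Gamma0 M) →+ ℂ) (hx : x ∈ K) (hxp : ¬ ∃ y ∈ K, x = (p : ℤ) • y)
    (hcong : ∀ ℓ ∈ PS, ∃ y ∈ K, TX ℓ x - (c ℓ) • x = (p : ℤ) • y) :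
    ∃ (g : CuspForm (Gamma0 M) 2) (mu : ℕ → ℂ) (𝔪' : Ideal (integralClosure ℤ ℂ)),
      g ≠ 0 ∧ 𝔪'.IsMaximal ∧ (p : integralClosure ℤ ℂ) ∈ 𝔪' ∧
      (∀ (ℓ : ℕ) (hℓ : ℓ.Prime) (hℓM : ¬ ℓ ∣ M), heckeTLin 2 hℓ hℓM g = mu ℓ • g) ∧
      (∀ (ℓ : ℕ) (_ : ℓ.Prime) (hℓM : ℓ ∣ M), heckeULin 2 hℓM g = mu ℓ • g) ∧
      (∀ ℓ ∈ PS, ∃ a : integralClosure ℤ ℂ, (a : ℂ) = mu ℓ ∧
        a - ((c ℓ : ℤ) : integralClosure ℤ ℂ) ∈ 𝔪') ∧
      mu q ^ 2 = 1 := by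
  classical
  -- the complex span of the lattice
  let Knew : Submodule ℂ (Additive (Gamma0 M) →+ ℂ) :=
    Submodule.span ℂ (K : Set (Additive (Gamma0 M) →+ ℂ))
  have hKnewpar : Knew ≤ parabolicHoms ℂ (Gamma0 M) ℂ := Submodule.span_le.mpr hKpar
  have hKnewrange : ∀ w ∈ Knew, w ∈ LinearMap.range (periodHomPair M) := by
    intro w hw
    rw [hES.2]
    exact hKnewpar hw
  have hKnew1 : ∀ ℓ, ℓ.Prime → ∀ φ ∈ Knew, TX ℓ φ ∈ Knew := by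
    intro ℓ hℓ
    have : Knew ≤ Knew.comap (TX ℓ) :=
      Submodule.span_le.mpr (fun y hy => Submodule.subset_span (hKstab ℓ hℓ y hy))
    exact this
  have hKnew2 : ∀ φ ∈ Knew, TX q (TX q φ) = φ := by
    intro φ hφ
    have h := LinearMap.eqOn_span (f := (TX q) ∘ₗ (TX q)) (g := LinearMap.id)
      (s := (K : Set (Additive (Gamma0 M) →+ ℂ))) (fun y hy => hKq y hy) hφ
    exact h
  -- Deligne–Serre
  obtain ⟨v, ψ, 𝔪', hvK, hv0, hv, hmax, hpm, hψ⟩ :=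
    deligne_serre_lattice_of_commute_on_span K hKfg (fun i : PS => TX i.1)
      (fun i j w hw => TX_comm_on_range TX hE1 hE2 hE3 (hPS i.1 i.2) (hPS j.1 j.2) w
        (hKnewrange w hw))
      (fun i y hy => hKstab i.1 (hPS i.1 i.2) y hy) hp (fun i : PS => c i.1) x hx hxp
      (fun i => hcong i.1 i.2)
  -- final assembly
  let ψ' : ℕ → ℂ := fun ℓ => if h : ℓ ∈ PS then ((ψ ⟨ℓ, h⟩ : integralClosure ℤ ℂ) : ℂ) else 0
  obtain ⟨g, mu, hg0, hT, hU, hmuS, hmuq⟩ :=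
    exists_full_eigenvector_of_eigenvector TX hE1 hE2 hE3 hES hq Knew hKnewpar hKnew1 hKnew2
      PS v hvK hv0 ψ' (fun ℓ hℓS _ => by
        simp only [ψ', dif_pos hℓS]
        exact hv ⟨ℓ, hℓS⟩)
  refine ⟨g, mu, 𝔪', hg0, hmax, hpm, hT, hU, fun ℓ hℓS => ?_, hmuq⟩
  refine ⟨ψ ⟨ℓ, hℓS⟩, ?_, hψ ⟨ℓ, hℓS⟩⟩
  rw [hmuS ℓ hℓS (hPS ℓ hℓS)]
  simp only [ψ', dif_pos hℓS]

end Tail

end Fermat.Agent.S41.Final49
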