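import Fermat.Agent.S41.Final49.Tail

set_option autoImplicit false

/-!
# S41: the tail of level raising, for a lattice of `ℤ`-valued homomorphisms

The cohomological argument produces a sublattice `Kℤ` of `parabolicHoms ℤ (Γ₀(M)) ℤ` (the
kernel of the two trace maps) and Hecke operators `TZ ℓ` on `Hom(Γ₀(M), ℤ)`.  This file
transports `levelRaising_tail` along the coefficient extension `ℤ → ℂ`.
-/

namespace Fermat.Agent.S41.Final49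

open ModularCurve ModularCurve.Period CongruenceSubgroup CuspForm
open scoped MatrixGroups

/-- Extension of coefficients `ℤ → ℂ` on homomorphisms. -/
def castHom (Γ : Subgroup SL(2, ℤ)) : (Additive Γ →+ ℤ) →ₗ[ℤ] (Additive Γ →+ ℂ) where
  toFun φ := (Int.castAddHom ℂ).comp φ
  map_add' φ φ' := by
    ext γ
    simp
  map_smul' n φ := by
    ext γ
    simp

@[simp] theorem castHom_apply (Γ : Subgroup SL(2, ℤ)) (φ : Additive Γ →+ ℤ) (γ : Additive Γ) :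
    castHom Γ φ γ = ((φ γ : ℤ) : ℂ) := rfl

theorem castHom_injective (Γ : Subgroup SL(2, ℤ)) : Function.Injective (castHom Γ) := by
  intro φ φ' h
  refine AddMonoidHom.ext fun γ => ?_
  have := congrArg (fun ψ : Additive Γ →+ ℂ => ψ γ) h
  simpa using this

theorem castHom_mem_parabolicHoms {Γ : Subgroup SL(2, ℤ)} {φ : Additive Γ →+ ℤ}
    (hφ : φ ∈ parabolicHoms ℤ Γ ℤ) : castHom Γ φ ∈ parabolicHoms ℂ Γ ℂ := by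
  rw [mem_parabolicHoms_iff] at hφ ⊢
  intro γ hγ
  rw [castHom_apply, hφ γ hγ, Int.cast_zero]

variable {M : ℕ} [NeZero M]

/-- **The tail of level raising, integral coefficients.** -/
theorem levelRaising_tail_int
    (TX : ℕ → Module.End ℂ (Additive (Gamma0 M) →+ ℂ))
    (hE1 : ∀ ℓ (hℓ : ℓ.Prime) (hℓM : ¬ ℓ ∣ M) (f : CuspForm (Gamma0 M) 2),
      TX ℓ (periodMap M f) = periodMap M (heckeTLin 2 hℓ hℓM f))
    (hE2 : ∀ ℓ (_ : ℓ.Prime) (hℓM : ℓ ∣ M) (f : CuspForm (Gamma0 M) 2),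
      TX ℓ (periodMap M f) = periodMap M (heckeULin 2 hℓM f))
    (hE3 : ∀ ℓ, ℓ.Prime → ∀ φ : Additive (Gamma0 M) →+ ℂ,
      TX ℓ (charInvolution M ℂ ℂ φ) = charInvolution M ℂ ℂ (TX ℓ φ))
    (hES : Function.Injective (periodHomPair M) ∧
      LinearMap.range (periodHomPair M) = parabolicHoms ℂ (Gamma0 M) ℂ)
    (TZ : ℕ → Module.End ℤ (Additive (Gamma0 M) →+ ℤ))
    (hTZ : ∀ ℓ, ℓ.Prime → ∀ φ : Additive (Gamma0 M) →+ ℤ,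
      castHom (Gamma0 M) (TZ ℓ φ) = TX ℓ (castHom (Gamma0 M) φ))
    {q p : ℕ} (hq : q.Prime) (hp : p.Prime)
    (K : Submodule ℤ (Additive (Gamma0 M) →+ ℤ)) (hKfg : K.FG)
    (hKpar : K ≤ parabolicHoms ℤ (Gamma0 M) ℤ)
    (hKstab : ∀ ℓ, ℓ.Prime → ∀ φ ∈ K, TZ ℓ φ ∈ K)
    (hKq : ∀ φ ∈ K, TZ q (TZ q φ) = φ)
    (PS : Set ℕ) (hPS : ∀ ℓ ∈ PS, ℓ.Prime) (c : ℕ → ℤ)
    (x : Additive (Gamma0 M) →+ ℤ) (hx : x ∈ K) (hxp : ¬ ∃ y ∈ K, x = (p : ℤ) • y)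
    (hcong : ∀ ℓ ∈ PS, ∃ y ∈ K, TZ ℓ x - (c ℓ) • x = (p : ℤ) • y) :
    ∃ (g : CuspForm (Gamma0 M) 2) (mu : ℕ → ℂ) (𝔪' : Ideal (integralClosure ℤ ℂ)),
      g ≠ 0 ∧ 𝔪'.IsMaximal ∧ (p : integralClosure ℤ ℂ) ∈ 𝔪' ∧
      (∀ (ℓ : ℕ) (hℓ : ℓ.Prime) (hℓM : ¬ ℓ ∣ M), heckeTLin 2 hℓ hℓM g = mu ℓ • g) ∧
      (∀ (ℓ : ℕ) (_ : ℓ.Prime) (hℓM : ℓ ∣ M), heckeULin 2 hℓM g = mu ℓ • g) ∧
      (∀ ℓ ∈ PS, ∃ a : integralClosure ℤ ℂ, (a : ℂ) = mu ℓ ∧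
        a - ((c ℓ : ℤ) : integralClosure ℤ ℂ) ∈ 𝔪') ∧
      mu q ^ 2 = 1 := by
  let ι := castHom (Gamma0 M)
  have hι : Function.Injective ι := castHom_injective (Gamma0 M)
  refine levelRaising_tail TX hE1 hE2 hE3 hES hq hp (K.map ι) (hKfg.map ι) ?_ ?_ ?_ PS hPS c
    (ι x) (Submodule.mem_map_of_mem hx) ?_ ?_
  · rintro _ ⟨φ, hφ, rfl⟩
    exact castHom_mem_parabolicHoms (hKpar hφ)
  · rintro ℓ hℓ _ ⟨φ, hφ, rfl⟩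
    exact ⟨TZ ℓ φ, hKstab ℓ hℓ φ hφ, hTZ ℓ hℓ φ⟩
  · rintro _ ⟨φ, hφ, rfl⟩
    show TX q (TX q (ι φ)) = ι φ
    rw [← hTZ q hq, ← hTZ q hq, hKq φ hφ]
  · rintro ⟨_, ⟨y, hy, rfl⟩, hxy⟩
    apply hxp
    refine ⟨y, hy, hι ?_⟩
    rw [hxy, map_zsmul]
  · intro ℓ hℓ
    obtain ⟨y, hy, hxy⟩ := hcong ℓ hℓ
    refine ⟨ι y, Submodule.mem_map_of_mem hy, ?_⟩
    rw [← hTZ ℓ (hPS ℓ hℓ), ← map_zsmul, ← map_zsmul, ← map_sub, hxy]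

end Fermat.Agent.S41.Final49
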